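import Fermat.Agent.S56.GW.RQCup
import Fermat.Agent.Lib.Cheb.H476.FrobConj

/-!
# Row S56 — (REC-Q) leaves CONJ-UR and CONJ-COB (helper546)

* `conjUr : ConjUrStatement` — a global ad⁰-cocycle vanishing on one inertia group over `q`
  (`ρ̄` unramified at `q`) vanishes on all inertia groups over `q`;
* `conjCob : ConjCobStatement` — a global ad⁰-cocycle which is a coboundary on one decomposition
  group over `v` is a coboundary on every decomposition group over `v`.

Both follow from the conjugation formula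
`c (g σ g⁻¹) = c g + Ad g (c σ) − Ad (g σ g⁻¹) (c g)` and the transitivity of `G_ℚ` on the places
over a prime (`Lib/Cheb/H476/FrobConj.exists_smul_eq`).
-/

set_option autoImplicit false

open scoped Pointwise

noncomputable section

namespace Fermat.Agent.S56.GW.H546

open Fermat.Agent.S56 Fermat.Agent.S56.H716 Fermat.Agent.S56.GW

variable {k : Type} [Field k] (ρbar : ResidualGaloisRep k)

/-- The adjoint action `A ↦ ρ̄g A ρ̄g⁻¹`. -/
def adj (g : GQ) (A : Module.End k ρbar.V) : Module.End k ρbar.V :=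
  ρbar.ρ g * A * ρbar.ρ g⁻¹

theorem adj_mul (g h : GQ) (A : Module.End k ρbar.V) :
    adj ρbar (g * h) A = adj ρbar g (adj ρbar h A) :=
  (conj_conj ρbar g h A).symm

theorem adj_sub (g : GQ) (A B : Module.End k ρbar.V) :
    adj ρbar g (A - B) = adj ρbar g A - adj ρbar g B := by
  unfold adj
  rw [mul_sub, sub_mul]

theorem adj_neg (g : GQ) (A : Module.End k ρbar.V) :
    adj ρbar g (-A) = -adj ρbar g A := by
  unfold adj
  rw [mul_neg, neg_mul]

theorem adj_zero (g : GQ) : adj ρbar g (0 : Module.End k ρbar.V) = 0 := by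
  unfold adj
  rw [mul_zero, zero_mul]

theorem adj_one (A : Module.End k ρbar.V) : adj ρbar 1 A = A := by
  unfold adj
  rw [inv_one, ρbar.ρ.map_one, one_mul, mul_one]

variable {ρbar}

theorem IsAdCocycle.map_mul_adj {c : GQ → Module.End k ρbar.V} (hc : IsAdCocycle ρbar c)
    (g h : GQ) : c (g * h) = c g + adj ρbar g (c h) :=
  hc.map_mul g h

theorem IsAdCocycle.map_one_eq_zero {c : GQ → Module.End k ρbar.V} (hc : IsAdCocycle ρbar c) :
    c 1 = 0 := by
  have h := IsAdCocycle.map_mul_adj hc 1 1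
  rw [mul_one, adj_one] at h
  exact left_eq_add.mp h

theorem IsAdCocycle.map_inv_eq {c : GQ → Module.End k ρbar.V} (hc : IsAdCocycle ρbar c)
    (g : GQ) : c g⁻¹ = -adj ρbar g⁻¹ (c g) := by
  have h := IsAdCocycle.map_mul_adj hc g⁻¹ g
  rw [inv_mul_cancel, IsAdCocycle.map_one_eq_zero hc] at h
  exact eq_neg_of_add_eq_zero_left h.symm

/-- The conjugation formula for cocycles. -/
theorem IsAdCocycle.map_conj {c : GQ → Module.End k ρbar.V} (hc : IsAdCocycle ρbar c)
    (g σ : GQ) :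
    c (g * σ * g⁻¹) = c g + adj ρbar g (c σ) - adj ρbar (g * σ * g⁻¹) (c g) := by
  rw [IsAdCocycle.map_mul_adj hc (g * σ) g⁻¹, IsAdCocycle.map_mul_adj hc g σ,
    IsAdCocycle.map_inv_eq hc g, adj_neg, ← adj_mul]
  abel

/-- **CONJ-UR.** -/
theorem conjUr : ConjUrStatement := by
  intro k _ ρbar q P hq hP hur c hc hcI P' hP' σ' hσ'
  obtain ⟨g, ι, hι, rfl⟩ :=
    Fermat.Agent.Lib.Cheb.H476.exists_conj_of_mem_inertia hq hP hP' hσ'
  have hρ : ρbar.ρ (g * ι * g⁻¹) = 1 := hur P' hP' _ hσ'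
  rw [IsAdCocycle.map_conj hc g ι, hcI ι hι, adj_zero, add_zero]
  have : adj ρbar (g * ι * g⁻¹) (c g) = c g := by
    unfold adj
    rw [rho_inv_eq_one ρbar hρ, hρ, one_mul, mul_one]
  rw [this, sub_self]

/-- **CONJ-COB.** -/
theorem conjCob : ConjCobStatement := by
  intro k _ ρbar v P P' hv hP hP' c hc hcob
  obtain ⟨m, hm⟩ := hcob
  obtain ⟨g, hg⟩ := Fermat.Agent.Lib.Cheb.H476.exists_smul_eq hv hP hP'
  refine ⟨adj ρbar g m - c g, fun σ' hσ' => ?_⟩
  -- `σ' = g σ g⁻¹` with `σ ∈ D_P`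
  have hσ : g⁻¹ * σ' * g ∈ P.decompositionSubgroup ℚ := by
    have h1 := Fermat.Agent.Lib.Cheb.H476.conj_mem_decomposition g⁻¹ hσ'
    rw [inv_inv, ← hg, inv_smul_smul] at h1
    exact h1
  have hσ'eq : σ' = g * (g⁻¹ * σ' * g) * g⁻¹ := by group
  have hgσ : g * (g⁻¹ * σ' * g) = σ' * g := by group
  have key := IsAdCocycle.map_conj hc g (g⁻¹ * σ' * g)
  rw [← hσ'eq, hm _ hσ] at key
  rw [key]
  have e1 : adj ρbar g (ρbar.ρ (g⁻¹ * σ' * g) * m * ρbar.ρ (g⁻¹ * σ' * g)⁻¹ - m) =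
      adj ρbar σ' (adj ρbar g m) - adj ρbar g m := by
    rw [adj_sub]
    show adj ρbar g (adj ρbar (g⁻¹ * σ' * g) m) - _ = _
    rw [← adj_mul, hgσ, adj_mul]
  rw [e1]
  show _ = adj ρbar σ' (adj ρbar g m - c g) - (adj ρbar g m - c g)
  rw [adj_sub]
  abel

end Fermat.Agent.S56.GW.H546

end
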