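import Fermat.Agent.S56.GW.RQSpec

/-!
# Row S56 — (REC-Q) leaf INFL (helper546)

`infl : InflStatement` — for `L/ℚ` finite and a finite set `T` of primes, the fixed field `L'` of
the subgroup `N₀` generated by `G_L` and all inertia groups over primes outside `T` is finite,
unramified outside `T`, and `fixingSubgroup L' = N₀` (infinite Galois theory: `N₀ ⊇ G_L` is open,
hence closed).
-/

set_option autoImplicit false

noncomputable section

namespace Fermat.Agent.S56.GW.H546

open Fermat.Agent.S56 Fermat.Agent.S56.H716 Fermat.Agent.S56.GW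

/-- The subgroup generated by `G_L` and the inertia groups over the primes outside `T`. -/
def inflGroup (T : Finset ℕ) (L : IntermediateField ℚ Qb) : Subgroup GQ :=
  L.fixingSubgroup ⊔
    ⨆ (q : ℕ) (_ : q.Prime) (_ : q ∉ T) (P : ValuationSubring Qb) (_ : P.LiesOverPrime q),
      P.inertiaSubgroupIn ℚ

theorem fixing_le_inflGroup (T : Finset ℕ) (L : IntermediateField ℚ Qb) :
    L.fixingSubgroup ≤ inflGroup T L := le_sup_left

theorem inertia_le_inflGroup (T : Finset ℕ) (L : IntermediateField ℚ Qb) {q : ℕ}
    (hq : q.Prime) (hqT : q ∉ T) {P : ValuationSubring Qb} (hP : P.LiesOverPrime q) :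
    P.inertiaSubgroupIn ℚ ≤ inflGroup T L := by
  refine le_trans ?_ (le_sup_right : _ ≤ inflGroup T L)
  exact le_iSup_of_le q (le_iSup_of_le hq (le_iSup_of_le hqT (le_iSup_of_le P
    (le_iSup_of_le hP le_rfl))))

theorem inflGroup_le (T : Finset ℕ) (L : IntermediateField ℚ Qb) (R : Subgroup GQ)
    (h1 : L.fixingSubgroup ≤ R)
    (h2 : ∀ q : ℕ, q.Prime → q ∉ T → ∀ P : ValuationSubring Qb, P.LiesOverPrime q →
      P.inertiaSubgroupIn ℚ ≤ R) : inflGroup T L ≤ R :=
  sup_le h1 (iSup_le fun q => iSup_le fun hq => iSup_le fun hqT => iSup_le fun P =>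
    iSup_le fun hP => h2 q hq hqT P hP)

/-- **INFL.** -/
theorem infl : InflStatement := by
  intro T L hL
  have halg : Algebra.IsAlgebraic ℚ Qb := AlgebraicClosure.isAlgebraic ℚ
  have hcl : IsAlgClosure ℚ Qb := ⟨inferInstance, inferInstance⟩
  have hnorm : Normal ℚ Qb := IsAlgClosure.normal ℚ Qb
  have hgal : IsGalois ℚ Qb := isGalois_iff.mpr ⟨inferInstance, inferInstance⟩
  have hopen : IsOpen ((inflGroup T L : Subgroup GQ) : Set GQ) :=
    Subgroup.isOpen_mono (fixing_le_inflGroup T L) L.fixingSubgroup_isOpen
  have hclosed : IsClosed ((inflGroup T L : Subgroup GQ) : Set GQ) :=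
    Subgroup.isClosed_of_isOpen _ hopen
  let N₀ : ClosedSubgroup GQ := ⟨inflGroup T L, hclosed⟩
  have hfix : (IntermediateField.fixedField (inflGroup T L)).fixingSubgroup = inflGroup T L :=
    InfiniteGalois.fixingSubgroup_fixedField N₀
  have hle : IntermediateField.fixedField (inflGroup T L) ≤ L := by
    have h1 : IntermediateField.fixedField (inflGroup T L) ≤
        IntermediateField.fixedField L.fixingSubgroup := by
      intro x hx
      rw [IntermediateField.mem_fixedField_iff] at hx ⊢
      exact fun g hg => hx g (fixing_le_inflGroup T L hg)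
    rwa [InfiniteGalois.fixedField_fixingSubgroup] at h1
  refine ⟨IntermediateField.fixedField (inflGroup T L), ?_, ?_, ?_⟩
  · exact FiniteDimensional.of_injective (IntermediateField.inclusion hle).toLinearMap
      (IntermediateField.inclusion_injective hle)
  · intro q hq hqT P hP α hα x hx
    rw [IntermediateField.mem_fixedField_iff] at hx
    exact hx α (inertia_le_inflGroup T L hq hqT hP hα)
  · intro R hR1 hR2 α hα
    have hαmem : α ∈ (IntermediateField.fixedField (inflGroup T L)).fixingSubgroup := by
      rw [IntermediateField.mem_fixingSubgroup_iff]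
      exact hα
    rw [hfix] at hαmem
    refine inflGroup_le T L R (fun β hβ => hR1 β ?_) hR2 hαmem
    rw [IntermediateField.mem_fixingSubgroup_iff] at hβ
    exact hβ

end Fermat.Agent.S56.GW.H546

end
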